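/-
S32, node A (pure algebra, Mathlib only).

KEY LEMMA.  `X` an `R`-module with an `R`-linear action of a group `G` satisfying the
Cayley-Hamilton relation `g + ε(g) g⁻¹ = t(g) ∈ R`;  `M : G → M₂(T)` a representation whose matrices
span `M₂(T)`, `φ : R → T` a ring homomorphism, `I` an ideal of `T` with
`φ(t g) ≡ tr M(g) mod I` and (`P` kills `X` ⟹ `φ P ∈ I`).
Then every element `∑ a_g g` of `R[G]` which kills `X` satisfies `∑ φ(a_g) M(g) ≡ 0 mod I`.
-/
import Mathlib

set_option autoImplicit false

namespace Fermat.Agent.S32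

variable {G R X T : Type*} [Group G] [CommRing R] [AddCommGroup X] [Module R X] [CommRing T]

/-- right translate of an element of the group algebra -/
private noncomputable def chTr (a : G →₀ R) (h : G) : G →₀ R := a.mapDomain (· * h)

private theorem chTr_sum {N : Type*} [AddCommMonoid N] (a : G →₀ R) (h : G) (f : G → R → N) :
    (chTr a h).sum f = a.sum fun g r => f (g * h) r :=
  Finsupp.sum_mapDomain_index_inj (mul_left_injective h)

/-- (i) -/
private theorem ch_step_i (ρX : G →* Module.End R X) (ε t : G → R)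
    (hCH : ∀ (g : G) (x : X), ρX g x + ε g • ρX g⁻¹ x = t g • x) (a : G →₀ R) (x : X) :
    (a.sum fun g r => r • ρX g x) + (a.sum fun g r => r • ε g • ρX g⁻¹ x)
      = (a.sum fun g r => r * t g) • x := by
  rw [← Finsupp.sum_add]
  simp only [Finsupp.sum, Finset.sum_smul]
  refine Finset.sum_congr rfl fun g _ => ?_
  rw [← smul_add, hCH, smul_smul]

/-- the translate of an element killing `X` kills `X`. -/
private theorem ch_translate_kill (ρX : G →* Module.End R X)
    (a : G →₀ R) (ha : ∀ x : X, (a.sum fun g r => r • ρX g x) = 0) (h : G) (x : X) :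
    ((chTr a h).sum fun g r => r • ρX g x) = 0 := by
  rw [chTr_sum]
  simpa [map_mul] using ha (ρX h x)

/-- (ii) -/
private theorem ch_step_ii (ρX : G →* Module.End R X) (ε t : G → R)
    (hCH : ∀ (g : G) (x : X), ρX g x + ε g • ρX g⁻¹ x = t g • x)
    (hε_mul : ∀ (g h : G) (x : X), ε (g * h) • x = ε g • ε h • x)
    (hε_one : ∀ x : X, ε 1 • x = x)
    (a : G →₀ R) (ha : ∀ x : X, (a.sum fun g r => r • ρX g x) = 0) (h : G) :
    ∃ s : R, ∀ x : X, (a.sum fun g r => r * t g) • ρX h x = s • x := by
  have h1 : ∀ x : X, (a.sum fun g r => r • ε g • ρX g⁻¹ x) = (a.sum fun g r => r * t g) • x := by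
    intro x
    rw [← ch_step_i ρX ε t hCH a x, ha x, zero_add]
  have h2 : ∀ (h : G) (x : X), ((chTr a h).sum fun g r => r * t g) • x
      = ε h • (a.sum fun g r => r * t g) • ρX h⁻¹ x := by
    intro h x
    rw [← ch_step_i ρX ε t hCH (chTr a h) x, ch_translate_kill ρX a ha h x, zero_add, chTr_sum,
      ← map_smul, ← h1 x, ← map_smul, Finsupp.smul_sum, map_finsuppSum]
    refine Finsupp.sum_congr fun g _ => ?_
    rw [hε_mul, mul_inv_rev, map_mul, Module.End.mul_apply, map_smul, map_smul, map_smul,
      smul_comm (ε h) (a g), smul_comm (ε h) (ε g)]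
  refine ⟨ε h * ((chTr a h⁻¹).sum fun g r => r * t g), fun x => ?_⟩
  rw [mul_smul, h2 h⁻¹ x, inv_inv, ← hε_mul, mul_inv_cancel, hε_one]

/-- (iii) -/
private theorem ch_step_iii (ρX : G →* Module.End R X) (ε t : G → R)
    (hCH : ∀ (g : G) (x : X), ρX g x + ε g • ρX g⁻¹ x = t g • x)
    (hε_mul : ∀ (g h : G) (x : X), ε (g * h) • x = ε g • ε h • x)
    (hε_one : ∀ x : X, ε 1 • x = x)
    (a : G →₀ R) (ha : ∀ x : X, (a.sum fun g r => r • ρX g x) = 0) (g h : G) (x : X) :
    (a.sum fun g r => r * t g) • ρX g (ρX h x) = (a.sum fun g r => r * t g) • ρX h (ρX g x) := by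
  obtain ⟨s, hs⟩ := ch_step_ii ρX ε t hCH hε_mul hε_one a ha g
  rw [hs, ← map_smul, ← map_smul, hs]

/-- (iv) -/
private theorem ch_step_iv (ρX : G →* Module.End R X) (ε t : G → R)
    (hCH : ∀ (g : G) (x : X), ρX g x + ε g • ρX g⁻¹ x = t g • x)
    (hε_mul : ∀ (g h : G) (x : X), ε (g * h) • x = ε g • ε h • x)
    (hε_one : ∀ x : X, ε 1 • x = x)
    (a : G →₀ R) (ha : ∀ x : X, (a.sum fun g r => r • ρX g x) = 0) (g h w : G) (x : X) :
    ((a.sum fun g r => r * t g) * (t (g * h * w) - t (h * g * w))) • x = 0 := by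
  set r := a.sum fun g r => r * t g with hr
  have h3 := ch_step_iii ρX ε t hCH hε_mul hε_one a ha
  rw [← hr] at h3
  rw [mul_smul, sub_smul, ← hCH, ← hCH, smul_sub, sub_eq_zero, smul_add, smul_add]
  congr 1
  · rw [map_mul, map_mul, map_mul, map_mul, Module.End.mul_apply, Module.End.mul_apply,
      Module.End.mul_apply, Module.End.mul_apply, h3]
  · rw [hε_mul, hε_mul, hε_mul (h * g), hε_mul h g, smul_comm (ε g) (ε h)]
    rw [smul_comm r, smul_comm r, smul_comm r, smul_comm r (ε h), smul_comm r (ε g),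
      smul_comm r (ε w)]
    congr 3
    have e1 : ρX (g * h * w)⁻¹ x = ρX w⁻¹ (ρX h⁻¹ (ρX g⁻¹ x)) := by
      rw [mul_inv_rev, mul_inv_rev, map_mul, map_mul, Module.End.mul_apply, Module.End.mul_apply]
    have e2 : ρX (h * g * w)⁻¹ x = ρX w⁻¹ (ρX g⁻¹ (ρX h⁻¹ x)) := by
      rw [mul_inv_rev, mul_inv_rev, map_mul, map_mul, Module.End.mul_apply, Module.End.mul_apply]
    rw [e1, e2, ← map_smul, ← map_smul (ρX w⁻¹), h3]

/-- step (v)+(i)-(iv): the "trace" of an element of `R[G]` killing `X` lies in `I`. -/
theorem ch_trace_mem (ρX : G →* Module.End R X) (ε t : G → R)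
    (hCH : ∀ (g : G) (x : X), ρX g x + ε g • ρX g⁻¹ x = t g • x)
    (hε_mul : ∀ (g h : G) (x : X), ε (g * h) • x = ε g • ε h • x)
    (hε_one : ∀ x : X, ε 1 • x = x)
    (φ : R →+* T) (I : Ideal T)
    (hF : ∀ P : R, (∀ x : X, P • x = 0) → φ P ∈ I)
    (M : G →* Matrix (Fin 2) (Fin 2) T)
    (htr : ∀ g : G, φ (t g) - (M g).trace ∈ I)
    (hspan : Submodule.span T (Set.range M) = ⊤)
    (a : G →₀ R) (ha : ∀ x : X, (a.sum fun g r => r • ρX g x) = 0) :
    φ (a.sum fun g r => r * t g) ∈ I := by
  set r := a.sum fun g r => r * t g with hr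
  -- the relation for the matrices `M g`
  have h0 : ∀ g h w : G, φ r * ((M g * M h * M w).trace - (M h * M g * M w).trace) ∈ I := by
    intro g h w
    have h1 := hF _ (ch_step_iv ρX ε t hCH hε_mul hε_one a ha g h w)
    rw [← hr, map_mul, map_sub] at h1
    have h2 := I.mul_mem_left (φ r) (I.sub_mem (htr (g * h * w)) (htr (h * g * w)))
    have h3 := I.sub_mem h1 h2
    rw [map_mul, map_mul, map_mul, map_mul] at h3
    convert h3 using 1
    ring
  have hmem : ∀ A : Matrix (Fin 2) (Fin 2) T, A ∈ Submodule.span T (Set.range M) := by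
    intro A; rw [hspan]; trivial
  -- first variable
  have h1 : ∀ (A : Matrix (Fin 2) (Fin 2) T) (h w : G),
      φ r * ((A * M h * M w).trace - (M h * A * M w).trace) ∈ I := by
    intro A h w
    induction hmem A using Submodule.span_induction with
    | mem A hA => obtain ⟨g, rfl⟩ := hA; exact h0 g h w
    | zero => simp
    | add A B _ _ hA hB =>
      have := I.add_mem hA hB
      convert this using 1
      simp only [add_mul, mul_add, Matrix.trace_add]
      ring
    | smul c A _ hA =>
      have := I.mul_mem_left c hA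
      convert this using 1
      simp only [Matrix.smul_mul, Matrix.mul_smul, Matrix.trace_smul, smul_eq_mul]
      ring
  have h2 : ∀ (A B : Matrix (Fin 2) (Fin 2) T) (w : G),
      φ r * ((A * B * M w).trace - (B * A * M w).trace) ∈ I := by
    intro A B w
    induction hmem B using Submodule.span_induction with
    | mem B hB => obtain ⟨g, rfl⟩ := hB; exact h1 A g w
    | zero => simp
    | add B C _ _ hB hC =>
      have := I.add_mem hB hC
      convert this using 1
      simp only [add_mul, mul_add, Matrix.trace_add]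
      ring
    | smul c B _ hB =>
      have := I.mul_mem_left c hB
      convert this using 1
      simp only [Matrix.smul_mul, Matrix.mul_smul, Matrix.trace_smul, smul_eq_mul]
      ring
  have h3 : ∀ (A B C : Matrix (Fin 2) (Fin 2) T),
      φ r * ((A * B * C).trace - (B * A * C).trace) ∈ I := by
    intro A B C
    induction hmem C using Submodule.span_induction with
    | mem C hC => obtain ⟨g, rfl⟩ := hC; exact h2 A B g
    | zero => simp
    | add C D _ _ hC hD =>
      have := I.add_mem hC hD
      convert this using 1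
      simp only [mul_add, Matrix.trace_add]
      ring
    | smul c C _ hC =>
      have := I.mul_mem_left c hC
      convert this using 1
      simp only [Matrix.mul_smul, Matrix.trace_smul, smul_eq_mul]
      ring
  have h4 := h3 (Matrix.single 0 1 1) (Matrix.single 1 0 1) (Matrix.single 0 0 1)
  simpa using h4

/-- **Key lemma.** -/
theorem ch_key (ρX : G →* Module.End R X) (ε t : G → R)
    (hCH : ∀ (g : G) (x : X), ρX g x + ε g • ρX g⁻¹ x = t g • x)
    (hε_mul : ∀ (g h : G) (x : X), ε (g * h) • x = ε g • ε h • x)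
    (hε_one : ∀ x : X, ε 1 • x = x)
    (φ : R →+* T) (I : Ideal T)
    (hF : ∀ P : R, (∀ x : X, P • x = 0) → φ P ∈ I)
    (M : G →* Matrix (Fin 2) (Fin 2) T)
    (htr : ∀ g : G, φ (t g) - (M g).trace ∈ I)
    (hspan : Submodule.span T (Set.range M) = ⊤)
    (a : G →₀ R) (ha : ∀ x : X, (a.sum fun g r => r • ρX g x) = 0) (i j : Fin 2) :
    (a.sum fun g r => φ r • M g) i j ∈ I := by
  -- trace of `mat b` for `b` killing `X`
  have h1 : ∀ b : G →₀ R, (∀ x : X, (b.sum fun g r => r • ρX g x) = 0) →
      (b.sum fun g r => φ r • M g).trace ∈ I := by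
    intro b hb
    have h := ch_trace_mem ρX ε t hCH hε_mul hε_one φ I hF M htr hspan b hb
    have h2 : φ (b.sum fun g r => r * t g) - (b.sum fun g r => φ r • M g).trace ∈ I := by
      rw [map_finsuppSum, ← Matrix.traceAddMonoidHom_apply, map_finsuppSum, ← Finsupp.sum_sub]
      refine Submodule.sum_mem _ fun g _ => ?_
      have := I.mul_mem_left (φ (b g)) (htr g)
      convert this using 1
      simp only [Matrix.traceAddMonoidHom_apply, Matrix.trace_smul, smul_eq_mul, map_mul]
      ring
    have := I.sub_mem h h2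
    simpa using this
  have h2 : ∀ h : G, ((a.sum fun g r => φ r • M g) * M h).trace ∈ I := by
    intro h
    have := h1 (chTr a h) (ch_translate_kill ρX a ha h)
    rw [chTr_sum] at this
    convert this using 2
    rw [Finsupp.sum_mul]
    refine Finsupp.sum_congr fun g _ => ?_
    rw [map_mul, Matrix.smul_mul]
  have hmem : ∀ A : Matrix (Fin 2) (Fin 2) T, A ∈ Submodule.span T (Set.range M) := by
    intro A; rw [hspan]; trivial
  have h3 : ∀ Y : Matrix (Fin 2) (Fin 2) T, ((a.sum fun g r => φ r • M g) * Y).trace ∈ I := by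
    intro Y
    induction hmem Y using Submodule.span_induction with
    | mem Y hY => obtain ⟨g, rfl⟩ := hY; exact h2 g
    | zero => simp
    | add C D _ _ hC hD =>
      have := I.add_mem hC hD
      convert this using 1
      simp only [mul_add, Matrix.trace_add]
    | smul c C _ hC =>
      have := I.mul_mem_left c hC
      convert this using 1
      simp only [Matrix.mul_smul, Matrix.trace_smul, smul_eq_mul]
  have h4 := h3 (Matrix.single j i 1)
  rw [Matrix.trace_mul_single] at h4
  simpa using h4

end Fermat.Agent.S32
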