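/-
S32 (flatness at `p` of the representation of a Hecke-Galois datum).  Definitions.
Owner: helper152.

Route: `V / I V` is a quotient of a Galois submodule of a finite power of the layer `W_k` of the
universal Hecke-Galois tower (cluster GAL), the layer `W_k` is Galois-isomorphic to
`J₀(N)[p ^ k]`, which carries a Hopf order (S19), and Hopf orders pass to powers, submodules and
quotients (`S19/Closure.lean`, `S19/ClosureQuot.lean`).
-/
import Fermat.Agent.S19.Defs
import Fermat.Prelude.Def_GaloisRep_Flat

set_option autoImplicit false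

noncomputable section

namespace Fermat.Agent.S32

open Fermat.Agent.S19

/-- The underlying additive group of a representation of `G_ℚ`, with its Galois action. -/
def RepMod {R W : Type} [Semiring R] [AddCommGroup W] [Module R W]
    (_ρ : Gal →* Module.End R W) : Type := W

section RepMod

variable {R W : Type} [Semiring R] [AddCommGroup W] [Module R W] (ρ : Gal →* Module.End R W)

instance : AddCommGroup (RepMod ρ) := inferInstanceAs (AddCommGroup W)

/-- the identity map `W → RepMod ρ` -/
def RepMod.mk : W ≃+ RepMod ρ := AddEquiv.refl W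

instance : DistribMulAction Gal (RepMod ρ) where
  smul σ w := RepMod.mk ρ (ρ σ ((RepMod.mk ρ).symm w))
  one_smul w := by
    show ρ 1 w = w
    rw [map_one]; rfl
  mul_smul σ τ w := by
    show ρ (σ * τ) w = ρ σ (ρ τ w)
    rw [map_mul]; rfl
  smul_zero σ := map_zero (ρ σ)
  smul_add σ v w := map_add (ρ σ) v w

theorem RepMod.smul_mk (σ : Gal) (w : W) : σ • RepMod.mk ρ w = RepMod.mk ρ (ρ σ w) := rfl

instance [Finite W] : Finite (RepMod ρ) := inferInstanceAs (Finite W)

end RepMod

section Level

variable {A : Type} [CommRing A] [IsLocalRing A]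

/-- The action of `G_ℚ` on `V / I V`, as a representation. -/
def levelRep (ρ : GaloisRepAdic A) (I : Ideal A) :
    Gal →* Module.End A (ρ.V ⧸ (I • (⊤ : Submodule A ρ.V))) where
  toFun σ := ρ.levelAction I σ
  map_one' := by
    refine LinearMap.ext fun x => ?_
    obtain ⟨v, rfl⟩ := Submodule.Quotient.mk_surjective _ x
    show Submodule.Quotient.mk (ρ.ρ 1 v) = Submodule.Quotient.mk v
    rw [map_one]; rfl
  map_mul' σ τ := by
    refine LinearMap.ext fun x => ?_
    obtain ⟨v, rfl⟩ := Submodule.Quotient.mk_surjective _ x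
    show Submodule.Quotient.mk (ρ.ρ (σ * τ) v) = Submodule.Quotient.mk (ρ.ρ σ (ρ.ρ τ v))
    rw [map_mul]; rfl

theorem levelRep_apply (ρ : GaloisRepAdic A) (I : Ideal A) (σ : Gal) :
    levelRep ρ I σ = ρ.levelAction I σ := rfl

theorem levelRep_mk (ρ : GaloisRepAdic A) (I : Ideal A) (σ : Gal) (v : ρ.V) :
    levelRep ρ I σ (Submodule.Quotient.mk v) = Submodule.Quotient.mk (ρ.ρ σ v) := rfl

end Level

end Fermat.Agent.S32

end
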