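/-
S32, node G.
Elementary facts on the coefficient ring and on a residually absolutely irreducible representation.
-/
import Fermat.Agent.S32.Defs
import Fermat.Agent.S31.TraceKernel
import Fermat.Agent.S19.FlatOfOrder

set_option autoImplicit false

namespace Fermat.Agent.S32

open Fermat.Agent.S19 IsLocalRing

section Ring

variable {T : Type} [CommRing T] [IsLocalRing T]

/-- an ideal of finite index contains a power of the maximal ideal
(`T ⧸ I` is a finite, hence artinian, local ring or zero). -/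
theorem exists_pow_le_of_finite_quotient (I : Ideal T) [Finite (T ⧸ I)] :
    ∃ n : ℕ, maximalIdeal T ^ n ≤ I := by
  by_cases hI : I = ⊤
  · exact ⟨0, hI ▸ le_top⟩
  have hsurj : Function.Surjective (Ideal.Quotient.mk I) := Ideal.Quotient.mk_surjective
  have hcomap : Ideal.comap (Ideal.Quotient.mk I) (⊥ : Ideal (T ⧸ I)) = I := by
    rw [← RingHom.ker_eq_comap_bot, Ideal.mk_ker]
  have h1 : (maximalIdeal T).map (Ideal.Quotient.mk I) ≤ Ideal.jacobson (⊥ : Ideal (T ⧸ I)) := by
    rw [Ideal.map_le_iff_le_comap, Ideal.comap_jacobson_of_surjective hsurj, hcomap,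
      IsLocalRing.jacobson_eq_maximalIdeal I hI]
  obtain ⟨n, hn⟩ := IsArtinianRing.isNilpotent_jacobson_bot (R := T ⧸ I)
  refine ⟨n, ?_⟩
  rw [← hcomap, ← Ideal.map_le_iff_le_comap, Ideal.map_pow]
  calc (maximalIdeal T).map (Ideal.Quotient.mk I) ^ n
      ≤ Ideal.jacobson (⊥ : Ideal (T ⧸ I)) ^ n := Ideal.pow_right_mono h1 n
    _ = ⊥ := hn

/-- `V / I V` is finite. -/
theorem finite_quotient_smul_top (I : Ideal T) [Finite (T ⧸ I)] (V : Type) [AddCommGroup V]
    [Module T V] [Module.Finite T V] : Finite (V ⧸ (I • (⊤ : Submodule T V))) := by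
  have : Module.Finite (T ⧸ I) (V ⧸ (I • (⊤ : Submodule T V))) :=
    Module.Finite.of_restrictScalars_finite T (T ⧸ I) _
  exact Module.finite_of_finite (T ⧸ I)

/-- an endomorphism whose matrix has entries in `I` maps `V` into `I V`. -/
theorem apply_mem_smul_top_of_entries {V : Type} [AddCommGroup V] [Module T V]
    (B : Module.Basis (Fin 2) T V) (f : Module.End T V) (I : Ideal T)
    (h : ∀ i j, LinearMap.toMatrix B B f i j ∈ I) (v : V) :
    f v ∈ I • (⊤ : Submodule T V) := by
  have h1 : ∀ j, f (B j) ∈ I • (⊤ : Submodule T V) := by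
    intro j
    rw [← B.sum_repr (f (B j))]
    refine Submodule.sum_mem _ fun i _ => ?_
    have := h i j
    rw [LinearMap.toMatrix_apply] at this
    exact Submodule.smul_mem_smul this trivial
  rw [← B.sum_repr v, map_sum]
  refine Submodule.sum_mem _ fun j _ => ?_
  rw [map_smul]
  exact Submodule.smul_mem _ _ (h1 j)

/-- the first basis vector generates `V` over `T[G]` (`S31.span_toMatrix_eq_top`). -/
theorem exists_cyclic (ρ : GaloisRepAdic T) (habs : ρ.residual.IsAbsolutelyIrreducible)
    (B : Module.Basis (Fin 2) T ρ.V) (v : ρ.V) :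
    ∃ c : Gal →₀ T, v = c.sum fun g τ => τ • ρ.ρ g (B 0) := by
  let E : Module.End T ρ.V := B.constr T (fun _ => v)
  have hE : E (B 0) = v := by
    simp [E]
  have hmem : LinearMap.toMatrix B B E ∈
      Submodule.span T (Set.range fun σ : Gal => LinearMap.toMatrix B B (ρ.ρ σ)) := by
    rw [Fermat.Agent.S31.span_toMatrix_eq_top ρ habs B]
    trivial
  obtain ⟨c, hc⟩ := Finsupp.mem_span_range_iff_exists_finsupp.1 hmem
  refine ⟨c, ?_⟩
  have h2 : E = c.sum fun σ a => a • ρ.ρ σ := by
    apply (LinearMap.toMatrix B B).injective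
    rw [← hc, map_finsuppSum]
    simp only [map_smul]
  rw [← hE, h2, Finsupp.sum, LinearMap.sum_apply]
  rfl

/-- `IsFlatAt` from Hopf orders on all finite levels (`HasHopfOrder.isFlatModule`). -/
theorem isFlatAt_of_hasHopfOrder {p : ℕ} [Fact p.Prime] (ρ : GaloisRepAdic T)
    (hfin : Finite (ResidueField T))
    (h : ∀ I : Ideal T, Finite (T ⧸ I) → HasHopfOrder p (RepMod (levelRep ρ I))) :
    ρ.IsFlatAt p := by
  refine ⟨hfin, fun I hI => ?_⟩
  have : Finite (ρ.V ⧸ (I • (⊤ : Submodule T ρ.V))) := finite_quotient_smul_top I ρ.V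
  obtain ⟨H, i1, i2, h1, h2, h3, e, hmul, hσ⟩ := (h I hI).isFlatModule
  exact ⟨H, i1, i2, h1, h2, h3, e, hmul, hσ⟩

end Ring

end Fermat.Agent.S32
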