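/-
S32, node E (task S32-E, owner helper174; architect helper152).

The Kummer model `W N n` of cluster GAL embeds Galois-equivariantly into `J₀(N)[n]`
(`u ↦ [(div u) / n]`): `GAL.Genus.kumHom`, `ker_kumHom` give the injective homomorphism;
equivariance is `divN (σ u) = σ • divN u`.
-/
import Fermat.Agent.S32.Defs
import Fermat.Agent.S19.Glue.Defs
import Fermat.Agent.GAL.Genus.Kummer

set_option autoImplicit false

namespace Fermat.Agent.S32

open Fermat.Agent.S19 Fermat.Agent.GAL

open AlgebraicCurve ModularCurve Fermat.Agent.S24 in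
/-- `(div (g u)) / n = g • (div u) / n` -/
theorem KumTors.divN_smul {K F : Type*} [Field K] [Field F] [Algebra K F] [IsAlgClosed K]
    [CharZero K] [FF.IsFF1 K F] (n : ℕ) (g : SemilinearAut K F) (u : F) :
    Genus.divN K n (g • u) = g • Genus.divN K n u := by
  ext v
  rw [SemilinearAut.divisor_smul_apply, Genus.divN_apply, Genus.divN_apply]
  have h := SemilinearAut.ord_smul g (g⁻¹ • v) u
  rw [smul_inv_smul] at h
  rw [h]

open AlgebraicCurve ModularCurve Fermat.Agent.S24 in
/-- the Kummer map on the quotient -/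
noncomputable def KumTors.kappa (N n : ℕ) [NeZero N] (hn : 0 < n) : E.W N n →+ Glue.Tors N n :=
  MonoidHom.toAdditiveLeft (QuotientGroup.lift _ (Genus.kumHom N n hn) (fun u hu => by
    rw [← Genus.ker_kumHom N n hn] at hu
    exact hu))

open AlgebraicCurve ModularCurve Fermat.Agent.S24 in
theorem KumTors.kappa_cls (N n : ℕ) [NeZero N] (hn : 0 < n) (u : E.kum N n) :
    KumTors.kappa N n hn (E.cls u) =
      ⟨Pic0.mk (Genus.kumDiv N n hn u), Genus.mk_kumDiv_mem_torsion N n hn u⟩ := rfl

open AlgebraicCurve ModularCurve Fermat.Agent.S24 in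
theorem exists_kumToTors (N n : ℕ) [NeZero N] (hn : 0 < n) :
    ∃ κ : E.W N n →+ Glue.Tors N n, Function.Injective κ ∧
      ∀ (σ : Gal) (w : E.W N n), κ (E.rho N n σ w) = σ • κ w := by
  have := Export.isFF1 N
  refine ⟨KumTors.kappa N n hn, ?_, ?_⟩
  · rw [injective_iff_map_eq_zero]
    intro x hx
    obtain ⟨u, rfl⟩ := E.cls_surjective x
    rw [E.cls_eq_zero_iff, ← Subgroup.mem_subgroupOf, ← Genus.ker_kumHom N n hn, MonoidHom.mem_ker]
    exact congrArg Multiplicative.ofAdd hx
  · intro σ w
    obtain ⟨u, rfl⟩ := E.cls_surjective w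
    rw [E.rho_cls, KumTors.kappa_cls, KumTors.kappa_cls]
    apply Subtype.ext
    rw [Glue.coe_smul]
    show Pic0.mk (Genus.kumDiv N n hn _) =
      arithmeticGalois (modularFunctionFieldFull N) σ • (Pic0.mk (Genus.kumDiv N n hn u))
    rw [SemilinearAut.pic0_smul_mk]
    refine congrArg Pic0.mk (Subtype.ext ?_)
    rw [SemilinearAut.coe_degZeroSMulHom]
    exact KumTors.divN_smul n (arithmeticGalois (L := Kbar) (modularFunctionFieldFull N) σ)
      ((u : (FN N)ˣ) : FN N)

end Fermat.Agent.S32
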