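/-
S32, node F (blueprint helper152, proof helper187).

A universal tower all of whose layers carry a Hopf order, from S19.
`U := utowerOfKummer hp S hNS hpS D`, `D k := E.kummerLevel klStatement N (p^k) _ (E.heckeFam N) mult _`
as in `GAL/Mult/Final.lean` (`mult` from `Mult.exists_multEquiv`).  Then `U.W k = homPE N (ZMod (p^k))`,
`U.ρ k σ w = mult (E.rho N (p^k) σ (mult.symm w))` by `rfl`,
so `κ ∘ mult.symm : RepMod (U.ρ k) →+ Glue.Tors N (p^k)` is injective and equivariant: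
`HasHopfOrder.of_injective` (finiteness of `Tors`: `Glue.finite_tors`).
-/
import Fermat.Agent.S32.KumTors
import Fermat.Agent.S19.Closure
import Fermat.Agent.GAL.Mult.Final
import Fermat.Agent.GAL.TowerOfKummer

set_option autoImplicit false

namespace Fermat.Agent.S32

open Fermat.Agent.S19 Fermat.Agent.GAL

/-- The input from S19. -/
def FlatTors : Prop :=
  ∀ (N : ℕ) [NeZero N] (ℓ : ℕ) [Fact ℓ.Prime], ¬ ℓ ∣ N → ∀ k : ℕ,
    HasHopfOrder ℓ (Glue.Tors N (ℓ ^ k))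

theorem exists_flat_utower (hS19 : FlatTors) {N p : ℕ} [NeZero N] [Fact p.Prime] (hpN : ¬ p ∣ N)
    (S : Finset ℕ) (hNS : ∀ q : ℕ, q.Prime → q ∣ N → q ∈ S) (hpS : p ∈ S) :
    ∃ U : UTower N p S, ∀ k : ℕ, Finite (U.W k) ∧ HasHopfOrder p (RepMod (U.ρ k)) := by
  have hp : p.Prime := Fact.out
  have hpos : ∀ k : ℕ, 0 < p ^ k := fun k => pow_pos hp.pos k
  choose mult hT using fun k : ℕ => Mult.exists_multEquiv N (p ^ k) (hpos k)
  let D : ∀ k : ℕ, KummerLevel N (p ^ k) := fun k =>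
    E.kummerLevel klStatement N (p ^ k) (hpos k) (E.heckeFam N) (mult k)
      (fun ℓ hℓ hℓN w => @hT k ℓ ⟨hℓ.ne_zero⟩ hℓ hℓN _ w)
  let U : UTower N p S := utowerOfKummer hp S hNS hpS D
  refine ⟨U, fun k => ?_⟩
  have hfin : Finite (Fermat.Agent.S16.Lift.homPE N (ZMod (p ^ k))) :=
    Nat.finite_of_card_ne_zero (by
      rw [Fermat.Agent.S16.Lift.card_homPE N _ (hpos k)]
      exact pow_ne_zero _ (hpos k).ne')
  refine ⟨hfin, ?_⟩
  obtain ⟨κ, hκ, hκe⟩ := exists_kumToTors N (p ^ k) (hpos k)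
  have := Glue.finite_tors N (p ^ k) (hpos k)
  let e₁ : RepMod (U.ρ k) →+ U.W k := (RepMod.mk (U.ρ k)).symm.toAddMonoidHom
  let e₂ : U.W k →+ E.W N (p ^ k) := (mult k).symm.toAddMonoidHom
  refine HasHopfOrder.of_injective (M := Glue.Tors N (p ^ k)) ((κ.comp e₂).comp e₁) ?_ ?_
    (hS19 N p hpN k)
  · exact hκ.comp ((mult k).symm.injective.comp (RepMod.mk (U.ρ k)).symm.injective)
  · intro σ x
    show κ ((mult k).symm (mult k (E.rho N (p ^ k) σ ((mult k).symm x)))) =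
      σ • κ ((mult k).symm x)
    rw [AddEquiv.symm_apply_apply, hκe]

end Fermat.Agent.S32
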