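/-
S32, node D.  Owner of the statement: helper152; proof: helper153.

If every element of `R[G]` killing `X` kills `y₀ ∈ Q` (through `φ : R → T`), and `Q` is generated
by `y₀` over `T[G]`, `I Q = 0`, `T / I` finite, then `Q` is a quotient of a Galois submodule of a
finite power of `X`; hence a Hopf order on `X` gives one on `Q`.

PROOF.  `J := T ⧸ I` (finite), `Amb := J × X → RepMod ρX` with `G` acting on the values.
`Amb` embeds equivariantly in `Fin r → RepMod ρX`, so it has a Hopf order.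
`Op : (J → (Gal →₀ R)) →+ Amb`, `Op a (b, x) = ∑_g (a b) g • ρX g x`;   `P := range Op`, stable under
`G` because `σ • Op a = Op (fun b => (a b).mapDomain (σ * ·))`.
`Θ' : (J → (Gal →₀ R)) →+ Q`, `Θ' a = ∑_b (Quotient.out b) • ∑_g φ ((a b) g) • ρQ g y₀`; by `hkey`,
`ker Op ≤ ker Θ'`, so `Θ'` induces `Θ : P →+ Q`, equivariant, surjective.
-/
import Fermat.Agent.S32.Defs
import Fermat.Agent.S19.Closure
import Fermat.Agent.S19.ClosureQuot

set_option autoImplicit false

namespace Fermat.Agent.S32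

open Fermat.Agent.S19

/-- Hopf orders on finite powers indexed by any finite type. -/
theorem subQuot_pi {p : ℕ} [Fact p.Prime] {M : Type} [AddCommGroup M] [Finite M]
    [DistribMulAction Gal M] (h : HasHopfOrder p M) (ι : Type) [Finite ι] :
    HasHopfOrder p (ι → M) := by
  obtain ⟨r, ⟨e⟩⟩ := Finite.exists_equiv_fin ι
  let φ : (ι → M) →+ (Fin r → M) :=
    { toFun := fun f i => f (e.symm i)
      map_zero' := rfl
      map_add' := fun _ _ => rfl }
  refine HasHopfOrder.of_injective φ ?_ (fun _ _ => rfl) (h.pi r)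
  intro f g hfg
  funext i
  have := congrFun hfg (e i)
  simpa [φ] using this

/-- Hopf orders pass to subquotients. -/
theorem subQuot_subquot {p : ℕ} [Fact p.Prime] {M Q : Type} [AddCommGroup M] [Finite M]
    [DistribMulAction Gal M] [AddCommGroup Q] [DistribMulAction Gal Q] (h : HasHopfOrder p M)
    (P : AddSubgroup M) (hP : ∀ σ : Gal, ∀ x ∈ P, σ • x ∈ P) (Θ : P →+ Q)
    (hΘ : Function.Surjective Θ)
    (heq : ∀ (σ : Gal) (x : P), Θ ⟨σ • (x : M), hP σ x x.2⟩ = σ • Θ x) : HasHopfOrder p Q := by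
  letI : DistribMulAction Gal P :=
    { smul := fun σ x => ⟨σ • (x : M), hP σ x x.2⟩
      one_smul := fun x => Subtype.ext (one_smul Gal (x : M))
      mul_smul := fun σ τ x => Subtype.ext (mul_smul σ τ (x : M))
      smul_zero := fun σ => Subtype.ext (smul_zero σ)
      smul_add := fun σ x y => Subtype.ext (smul_add σ (x : M) (y : M)) }
  have hPh : HasHopfOrder p P :=
    HasHopfOrder.of_injective P.subtype Subtype.val_injective (fun _ _ => rfl) h
  exact HasHopfOrder.of_surjective Θ hΘ heq hPh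

/-- Hopf orders and presentations: `Q` is the image of `E`, the relations of `M` hold in `Q`. -/
theorem subQuot_presentation {p : ℕ} [Fact p.Prime] {M Q E : Type} [AddCommGroup M] [Finite M]
    [DistribMulAction Gal M] [AddCommGroup Q] [DistribMulAction Gal Q] [AddCommGroup E]
    (h : HasHopfOrder p M) (Op : E →+ M) (Th : E →+ Q) (hker : ∀ a, Op a = 0 → Th a = 0)
    (hsurj : Function.Surjective Th) (tw : Gal → E → E)
    (hOp : ∀ σ a, Op (tw σ a) = σ • Op a) (hTh : ∀ σ a, Th (tw σ a) = σ • Th a) :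
    HasHopfOrder p Q := by
  have hle : Op.ker ≤ Th.ker := fun a ha => hker a ha
  let Θ : Op.range →+ Q :=
    (QuotientAddGroup.lift Op.ker Th hle).comp
      (QuotientAddGroup.quotientKerEquivRange Op).symm.toAddMonoidHom
  have hΘ : ∀ (a : E) (ha : Op a ∈ Op.range), Θ ⟨Op a, ha⟩ = Th a := by
    intro a ha
    have h1 : (QuotientAddGroup.quotientKerEquivRange Op).symm ⟨Op a, ha⟩ =
        (QuotientAddGroup.mk a : E ⧸ Op.ker) := by
      rw [AddEquiv.symm_apply_eq]
      rfl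
    show QuotientAddGroup.lift Op.ker Th hle
      ((QuotientAddGroup.quotientKerEquivRange Op).symm ⟨Op a, ha⟩) = Th a
    rw [h1]
    rfl
  refine subQuot_subquot h Op.range ?_ Θ ?_ ?_
  · rintro σ _ ⟨a, rfl⟩
    exact ⟨tw σ a, hOp σ a⟩
  · intro y
    obtain ⟨a, rfl⟩ := hsurj y
    exact ⟨⟨Op a, ⟨a, rfl⟩⟩, hΘ a _⟩
  · rintro σ ⟨_, ⟨a, rfl⟩⟩
    have h2 : (⟨σ • Op a, ⟨tw σ a, hOp σ a⟩⟩ : Op.range) = ⟨Op (tw σ a), ⟨tw σ a, rfl⟩⟩ :=
      Subtype.ext (hOp σ a).symm
    exact (congrArg Θ h2).trans ((hΘ _ _).trans ((hTh σ a).trans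
      (congrArg (fun z => σ • z) (hΘ a _).symm)))

section Concrete

variable {R X T Q : Type} [CommRing R] [AddCommGroup X] [Module R X] [CommRing T]
  [AddCommGroup Q] [Module T Q]

/-- `a ↦ ∑_g a g • ρX g x`. -/
noncomputable def subQuotOpX (ρX : Gal →* Module.End R X) (x : X) : (Gal →₀ R) →ₗ[R] X :=
  Finsupp.linearCombination R (fun g => ρX g x)

theorem subQuotOpX_apply (ρX : Gal →* Module.End R X) (x : X) (a : Gal →₀ R) :
    subQuotOpX ρX x a = a.sum fun g r => r • ρX g x :=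
  Finsupp.linearCombination_apply R a

theorem subQuotOpX_mapDomain (ρX : Gal →* Module.End R X) (x : X) (σ : Gal) (a : Gal →₀ R) :
    subQuotOpX ρX x (a.mapDomain (σ * ·)) = ρX σ (subQuotOpX ρX x a) := by
  unfold subQuotOpX
  rw [Finsupp.linearCombination_mapDomain, LinearMap.map_finsupp_linearCombination]
  have h1 : ((fun g => ρX g x) ∘ fun g => σ * g) = (⇑(ρX σ) ∘ fun g => ρX g x) := by
    funext g
    show ρX (σ * g) x = ρX σ (ρX g x)
    rw [map_mul]
    rfl
  rw [h1]

/-- `a ↦ ∑_g φ (a g) • ρQ g y₀`. -/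
noncomputable def subQuotThQ (ρQ : Gal →* Module.End T Q) (φ : R →+* T) (y₀ : Q) :
    (Gal →₀ R) →+ Q :=
  (subQuotOpX ρQ y₀).toAddMonoidHom.comp (Finsupp.mapRange.addMonoidHom φ.toAddMonoidHom)

theorem subQuotThQ_apply (ρQ : Gal →* Module.End T Q) (φ : R →+* T) (y₀ : Q) (a : Gal →₀ R) :
    subQuotThQ ρQ φ y₀ a = a.sum fun g r => φ r • ρQ g y₀ := by
  show subQuotOpX ρQ y₀ (Finsupp.mapRange φ (map_zero φ) a) = _
  rw [subQuotOpX_apply]
  exact Finsupp.sum_mapRange_index (h := fun g (r : T) => r • ρQ g y₀) (fun g => zero_smul T _)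

theorem subQuotThQ_mapDomain (ρQ : Gal →* Module.End T Q) (φ : R →+* T) (y₀ : Q) (σ : Gal)
    (a : Gal →₀ R) :
    subQuotThQ ρQ φ y₀ (a.mapDomain (σ * ·)) = ρQ σ (subQuotThQ ρQ φ y₀ a) := by
  show subQuotOpX ρQ y₀ (Finsupp.mapRange φ (map_zero φ) (a.mapDomain (σ * ·))) =
    ρQ σ (subQuotOpX ρQ y₀ (Finsupp.mapRange φ (map_zero φ) a))
  rw [← Finsupp.mapDomain_mapRange _ _ _ _ (map_add φ), subQuotOpX_mapDomain]

theorem subQuotThQ_single (ρQ : Gal →* Module.End T Q) (φ : R →+* T) (y₀ : Q) (g : Gal) :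
    subQuotThQ ρQ φ y₀ (Finsupp.single g 1) = ρQ g y₀ := by
  rw [subQuotThQ_apply, Finsupp.sum_single_index (by rw [map_zero, zero_smul]), map_one, one_smul]

end Concrete

theorem hasHopfOrder_of_key {p : ℕ} [Fact p.Prime] {R X T Q : Type} [CommRing R]
    [AddCommGroup X] [Module R X] [Finite X] [CommRing T] [AddCommGroup Q] [Module T Q]
    (ρX : Gal →* Module.End R X) (hX : HasHopfOrder p (RepMod ρX))
    (ρQ : Gal →* Module.End T Q)
    (I : Ideal T) [Finite (T ⧸ I)] (hIQ : ∀ τ ∈ I, ∀ y : Q, τ • y = 0)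
    (φ : R →+* T) (y₀ : Q)
    (hkey : ∀ a : Gal →₀ R, (∀ x : X, (a.sum fun g r => r • ρX g x) = 0) →
      (a.sum fun g r => φ r • ρQ g y₀) = 0)
    (hcyc : ∀ y : Q, ∃ c : Gal →₀ T, y = c.sum fun g τ => τ • ρQ g y₀) :
    HasHopfOrder p (RepMod ρQ) := by
  classical
  cases nonempty_fintype (T ⧸ I)
  let Op : ((T ⧸ I) → (Gal →₀ R)) →+ ((T ⧸ I) × X → RepMod ρX) :=
    { toFun := fun a bx => RepMod.mk ρX (subQuotOpX ρX bx.2 (a bx.1))
      map_zero' := by
        funext bx
        show RepMod.mk ρX (subQuotOpX ρX bx.2 0) = 0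
        rw [map_zero, map_zero]
      map_add' := fun a a' => by
        funext bx
        show RepMod.mk ρX (subQuotOpX ρX bx.2 (a bx.1 + a' bx.1)) = _
        rw [map_add, map_add]
        rfl }
  let Th0 : ((T ⧸ I) → (Gal →₀ R)) →+ Q :=
    { toFun := fun a => ∑ b : T ⧸ I, (Quotient.out b : T) • subQuotThQ ρQ φ y₀ (a b)
      map_zero' := by
        apply Finset.sum_eq_zero
        intro b _
        show (Quotient.out b : T) • subQuotThQ ρQ φ y₀ 0 = 0
        rw [map_zero, smul_zero]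
      map_add' := fun a a' => by
        rw [← Finset.sum_add_distrib]
        apply Finset.sum_congr rfl
        intro b _
        show (Quotient.out b : T) • subQuotThQ ρQ φ y₀ (a b + a' b) = _
        rw [map_add, smul_add] }
  have hTh0 : ∀ a, Th0 a = ∑ b : T ⧸ I, (Quotient.out b : T) • subQuotThQ ρQ φ y₀ (a b) :=
    fun _ => rfl
  let Th : ((T ⧸ I) → (Gal →₀ R)) →+ RepMod ρQ := (RepMod.mk ρQ).toAddMonoidHom.comp Th0
  refine subQuot_presentation (subQuot_pi hX ((T ⧸ I) × X)) Op Th ?_ ?_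
    (fun σ a b => (a b).mapDomain (σ * ·)) ?_ ?_
  · -- the relations
    intro a ha
    show RepMod.mk ρQ (Th0 a) = 0
    rw [hTh0, Finset.sum_eq_zero, map_zero]
    intro b _
    have h1 : subQuotThQ ρQ φ y₀ (a b) = 0 := by
      rw [subQuotThQ_apply]
      apply hkey
      intro x
      rw [← subQuotOpX_apply]
      exact congrFun ha (b, x)
    rw [h1, smul_zero]
  · -- surjectivity
    have hgen : ∀ (τ : T) (g : Gal), τ • ρQ g y₀ ∈ Th0.range := by
      intro τ g
      refine ⟨Pi.single (Ideal.Quotient.mk I τ) (Finsupp.single g 1), ?_⟩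
      rw [hTh0, Finset.sum_eq_single (Ideal.Quotient.mk I τ)]
      · rw [Pi.single_eq_same, subQuotThQ_single]
        have h1 : (Quotient.out (Ideal.Quotient.mk I τ) : T) - τ ∈ I := by
          rw [← Ideal.Quotient.eq]
          exact Quotient.out_eq _
        have h2 := hIQ _ h1 (ρQ g y₀)
        rw [sub_smul, sub_eq_zero] at h2
        exact h2
      · intro b _ hb
        rw [Pi.single_eq_of_ne hb, map_zero, smul_zero]
      · intro h
        exact absurd (Finset.mem_univ _) h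
    intro y
    obtain ⟨c, hc⟩ := hcyc ((RepMod.mk ρQ).symm y)
    have h1 : (RepMod.mk ρQ).symm y ∈ Th0.range := by
      rw [hc]
      exact AddSubgroup.sum_mem _ (fun g _ => hgen _ g)
    obtain ⟨a, ha⟩ := h1
    refine ⟨a, ?_⟩
    show RepMod.mk ρQ (Th0 a) = y
    rw [ha, AddEquiv.apply_symm_apply]
  · intro σ a
    funext bx
    show RepMod.mk ρX (subQuotOpX ρX bx.2 ((a bx.1).mapDomain (σ * ·))) =
      σ • RepMod.mk ρX (subQuotOpX ρX bx.2 (a bx.1))
    rw [subQuotOpX_mapDomain, RepMod.smul_mk]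
  · intro σ a
    show RepMod.mk ρQ (Th0 fun b => (a b).mapDomain (σ * ·)) = σ • RepMod.mk ρQ (Th0 a)
    rw [RepMod.smul_mk, hTh0, hTh0]
    congr 1
    rw [map_sum]
    apply Finset.sum_congr rfl
    intro b _
    rw [subQuotThQ_mapDomain, map_smul]

end Fermat.Agent.S32
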