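/-
S32, node B (owner helper138; blueprint helper152).

The universal trace on a layer of the universal tower, compared with the trace of the
representation of a Hecke-Galois datum; Hecke polynomials killing a deep layer are `p`-adically
small in `T`.   Everything is a repackaging of `S31/FromTower.lean` + `S31/Reduction.lean`.
-/
import Fermat.Agent.S31.Dense
import Fermat.Agent.S31.FromTower

set_option autoImplicit false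

namespace Fermat.Agent.S32

open Fermat.Agent.S30 Fermat.Agent.GAL CuspForm IsLocalRing

variable {p : ℕ} {N : ℕ} [NeZero N] {S : Finset ℕ}
  {𝒪 : Type} [CommRing 𝒪] [IsDomain 𝒪] [IsDiscreteValuationRing 𝒪]
  [IsAdicComplete (IsLocalRing.maximalIdeal 𝒪) 𝒪]
  {θ : CuspForm.heckeAlgebra N 2 (↑S : Set ℕ) →+* IsLocalRing.ResidueField 𝒪}
  {T : Type} [CommRing T] [IsLocalRing T] [IsNoetherianRing T]
  [IsAdicComplete (IsLocalRing.maximalIdeal T) T] [Algebra 𝒪 T] [IsLocalHom (algebraMap 𝒪 T)]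
  [Module.Finite 𝒪 T] [Module.Free 𝒪 T]

/-- The ring homomorphism `ℤ[X_ℓ] → T`, `X_ℓ ↦ π (T_ℓ)`, of a datum. -/
noncomputable def polyT (H : CuspForm.HeckeGaloisRepDatum N (↑S : Set ℕ) 𝒪 θ T) : HA →+* T :=
  H.π.comp (MvPolynomial.aeval (heckeFun N S) : HA →ₐ[ℤ] heckeAlgebra N 2 (↑S : Set ℕ)).toRingHom

theorem polyT_apply (H : CuspForm.HeckeGaloisRepDatum N (↑S : Set ℕ) 𝒪 θ T) (P : HA) :
    polyT H P = H.π (MvPolynomial.aeval (heckeFun N S) P) := rfl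

/-- `polyT` of a Lucas polynomial. -/
theorem polyT_lucas (H : CuspForm.HeckeGaloisRepDatum N (↑S : Set ℕ) 𝒪 θ T)
    {ℓ : ℕ} (hℓ : ℓ.Prime) (hℓN : ¬ ℓ ∣ N) (hℓS : ℓ ∉ (↑S : Set ℕ)) (w : ℕ) :
    polyT H (S31.lucas (MvPolynomial.X ℓ : HA) (ℓ : HA) w) =
      H.π (S31.lucas (heckeAlgebra.T hℓ hℓN hℓS : heckeAlgebra N 2 (↑S : Set ℕ)) (ℓ : _) w) := by
  have e1 := S31.map_lucas (MvPolynomial.aeval (heckeFun N S) : HA →ₐ[ℤ] _).toRingHom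
    (MvPolynomial.X ℓ) (ℓ : HA) w
  simp only [AlgHom.toRingHom_eq_coe, RingHom.coe_coe, MvPolynomial.aeval_X, map_natCast] at e1
  rw [polyT_apply, e1, heckeFun_eq hℓ hℓN hℓS]

/-- The pointwise form of `exists_univ_trace`. -/
theorem univ_exists_pointwise [Fact p.Prime] (hpS : p ∈ S)
    (hNS : ∀ q : ℕ, q.Prime → q ∣ N → q ∈ S)
    (U : UTower N p S) (H : CuspForm.HeckeGaloisRepDatum N (↑S : Set ℕ) 𝒪 θ T) (k n : ℕ) (g : GQ) :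
    ∃ (t : HA) (e : ℕ), (∀ w : U.W k, U.ρ k g w + e • U.ρ k g⁻¹ w = t • w) ∧ IsCyc p k g e ∧
      polyT H t - LinearMap.trace T H.ρ.V (H.ρ.ρ g) ∈ maximalIdeal T ^ n := by
  obtain ⟨L₁, hL₁fin, hL₁⟩ := U.finiteLevel k
  obtain ⟨L₂, hL₂fin, hL₂⟩ := exists_cycloField p k
  obtain ⟨L₃, hL₃fin, hL₃⟩ := H.ρ.isAdicContinuous n
  have hfin12 : FiniteDimensional ℚ (L₁ ⊔ L₂ : IntermediateField ℚ (AlgebraicClosure ℚ)) :=
    IntermediateField.finiteDimensional_sup L₁ L₂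
  have hfin : FiniteDimensional ℚ (L₁ ⊔ L₂ ⊔ L₃ : IntermediateField ℚ (AlgebraicClosure ℚ)) :=
    IntermediateField.finiteDimensional_sup (L₁ ⊔ L₂) L₃
  obtain ⟨ℓ, A, σ, w, hℓ, hℓS, hA, hσ, hw⟩ := S31.frobPowDense (L₁ ⊔ L₂ ⊔ L₃) hfin S g
  have hle₁ : L₁ ≤ L₁ ⊔ L₂ ⊔ L₃ := le_sup_left.trans le_sup_left
  have hle₂ : L₂ ≤ L₁ ⊔ L₂ ⊔ L₃ := le_sup_right.trans le_sup_left
  have hle₃ : L₃ ≤ L₁ ⊔ L₂ ⊔ L₃ := le_sup_right
  have hℓN : ¬ ℓ ∣ N := fun hd => hℓS (hNS ℓ hℓ hd)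
  have hℓS1 : ℓ ∉ (↑S : Set ℕ) := by simpa using hℓS
  have hℓp : ℓ ≠ p := fun h => hℓS (h ▸ hpS)
  have hρ : U.ρ k (σ ^ w) = U.ρ k g := by
    have h1 : U.ρ k (g⁻¹ * σ ^ w) = 1 := by
      apply hL₁
      intro x hx
      rw [AlgEquiv.mul_apply, hw x (hle₁ hx)]
      exact AlgEquiv.symm_apply_apply g x
    have h2 : U.ρ k (σ ^ w) = U.ρ k g * U.ρ k (g⁻¹ * σ ^ w) := by
      rw [← map_mul, mul_inv_cancel_left]
    rw [h2, h1, mul_one]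
  have hρinv : U.ρ k (σ ^ w)⁻¹ = U.ρ k g⁻¹ := by
    have h1 : U.ρ k (σ ^ w)⁻¹ * U.ρ k g = 1 := by
      rw [← hρ, ← map_mul, inv_mul_cancel, map_one]
    calc U.ρ k (σ ^ w)⁻¹
        = U.ρ k (σ ^ w)⁻¹ * (U.ρ k g * U.ρ k g⁻¹) := by
          rw [← map_mul (U.ρ k) g, mul_inv_cancel, map_one, mul_one]
      _ = U.ρ k g⁻¹ := by rw [← mul_assoc, h1, one_mul]
  refine ⟨S31.lucas (MvPolynomial.X ℓ : HA) (ℓ : HA) w, ℓ ^ w, ?_, ?_, ?_⟩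
  · intro v
    rw [S31.lucas_smul U k hℓ hℓS ⟨A, hA, hσ⟩ w v, hρ, hρinv]
  · exact ((isCyc_frob hℓ hℓp ⟨A, hA, hσ⟩).pow w).congr
      (fun μ hμ => (hw μ (hle₂ (hL₂ μ hμ))).symm)
  · have h1 := S31.trace_sub_trace_mem H.ρ n L₃ hL₃ (σ ^ w) g (fun x hx => hw x (hle₃ hx))
    rw [S31.trace_frob_pow H hℓ hℓN hℓS1 A hA σ hσ w] at h1
    rw [polyT_lucas H hℓ hℓN hℓS1 w]
    exact h1

/-- **Universal trace.**  For `g ∈ G_ℚ` choose (`S31.frobPowDense`) a Frobenius lift `σ` at a prime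
`ℓ ∉ S` and `w` with `σ ^ w = g` on `L₁ ⊔ L₂ ⊔ L₃` (`L₁` = level of `U.W k`, `L₂ ⊇ μ_{p^k}`
(`S30.exists_cycloField`), `L₃` = level of `H.ρ` modulo `𝔪 ^ n`); `t g := lucas X_ℓ ℓ w`,
`e g := ℓ ^ w`. -/
theorem exists_univ_trace [Fact p.Prime] (hpS : p ∈ S) (hNS : ∀ q : ℕ, q.Prime → q ∣ N → q ∈ S)
    (U : UTower N p S) (H : CuspForm.HeckeGaloisRepDatum N (↑S : Set ℕ) 𝒪 θ T) (k n : ℕ) :
    ∃ (t : GQ → HA) (e : GQ → ℕ),
      (∀ (g : GQ) (w : U.W k), U.ρ k g w + e g • U.ρ k g⁻¹ w = t g • w) ∧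
      (∀ g h : GQ, e (g * h) ≡ e g * e h [MOD p ^ k]) ∧ e 1 ≡ 1 [MOD p ^ k] ∧
      ∀ g : GQ, polyT H (t g) - LinearMap.trace T H.ρ.V (H.ρ.ρ g) ∈ maximalIdeal T ^ n := by
  choose t e h1 h2 h3 using univ_exists_pointwise hpS hNS U H k n
  exact ⟨t, e, h1, fun g h => (h2 (g * h)).modEq ((h2 g).mul (h2 h)), (h2 1).modEq isCyc_one, h3⟩

/-- A Hecke polynomial killing the layer `n + c` is divisible by `p ^ n` in `T`
(`U.faithful` + `S31.exists_shift`). -/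
theorem exists_kill_shift (U : UTower N p S)
    (H : CuspForm.HeckeGaloisRepDatum N (↑S : Set ℕ) 𝒪 θ T) :
    ∃ c : ℕ, ∀ (n : ℕ) (P : HA), (∀ w : U.W (n + c), P • w = 0) →
      polyT H P ∈ Ideal.span {(p : T) ^ n} := by
  obtain ⟨c, hc⟩ := S31.exists_shift U.ι U.ι_injective p
  refine ⟨c, fun n P hP => ?_⟩
  obtain ⟨E, hE⟩ := U.faithful (n + c) P hP
  obtain ⟨b, hb⟩ := hc n _ E hE
  rw [Ideal.mem_span_singleton]
  refine ⟨H.π b, ?_⟩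
  rw [polyT_apply, hb, map_mul, map_pow, map_natCast]

end Fermat.Agent.S32
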