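/-
S32: assembly of the nodes.  Owner helper152.
-/
import Fermat.Agent.S32.CH
import Fermat.Agent.S32.Univ
import Fermat.Agent.S32.SubQuot
import Fermat.Agent.S32.Datum
import Fermat.Agent.S32.FlatTower

set_option autoImplicit false

namespace Fermat.Agent.S32

open Fermat.Agent.S19 Fermat.Agent.S30 Fermat.Agent.GAL CuspForm IsLocalRing

variable {p : ℕ} {N : ℕ} [NeZero N] {S : Finset ℕ}
  {𝒪 : Type} [CommRing 𝒪] [IsDomain 𝒪] [IsDiscreteValuationRing 𝒪]
  [IsAdicComplete (IsLocalRing.maximalIdeal 𝒪) 𝒪]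
  {θ : CuspForm.heckeAlgebra N 2 (↑S : Set ℕ) →+* IsLocalRing.ResidueField 𝒪}
  {T : Type} [CommRing T] [IsLocalRing T] [IsNoetherianRing T]
  [IsAdicComplete (IsLocalRing.maximalIdeal T) T] [Algebra 𝒪 T] [IsLocalHom (algebraMap 𝒪 T)]
  [Module.Finite 𝒪 T] [Module.Free 𝒪 T]

/-- the matrices of a representation in a basis -/
noncomputable def matRep (ρ : GaloisRepAdic T) (B : Module.Basis (Fin 2) T ρ.V) :
    Gal →* Matrix (Fin 2) (Fin 2) T where
  toFun σ := LinearMap.toMatrix B B (ρ.ρ σ)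
  map_one' := by rw [map_one]; exact LinearMap.toMatrix_one B
  map_mul' σ τ := by rw [map_mul]; exact LinearMap.toMatrix_mul B _ _

theorem hasHopfOrder_level [Fact p.Prime] (hp𝒪 : (p : 𝒪) ∈ IsLocalRing.maximalIdeal 𝒪)
    (hpS : p ∈ S) (hNS : ∀ q : ℕ, q.Prime → q ∣ N → q ∈ S)
    (U : UTower N p S) (hU : ∀ k : ℕ, Finite (U.W k) ∧ HasHopfOrder p (RepMod (U.ρ k)))
    (H : CuspForm.HeckeGaloisRepDatum N (↑S : Set ℕ) 𝒪 θ T) (I : Ideal T) [Finite (T ⧸ I)] :
    HasHopfOrder p (RepMod (levelRep H.ρ I)) := by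
  classical
  have hpT : (p : T) ∈ maximalIdeal T := by
    have h1 : (p : T) = algebraMap 𝒪 T (p : 𝒪) := by simp
    rw [h1]
    exact map_nonunit (algebraMap 𝒪 T) _ hp𝒪
  obtain ⟨n, hn⟩ := exists_pow_le_of_finite_quotient I
  obtain ⟨c, hc⟩ := exists_kill_shift U H
  obtain ⟨t, e, hCH, hemul, heone, htr⟩ := exists_univ_trace hpS hNS U H (n + c) n
  let B : Module.Basis (Fin 2) T H.ρ.V := Module.finBasisOfFinrankEq _ _ H.ρ.finrank_eq
  haveI := (hU (n + c)).1
  -- natural numbers congruent modulo `p ^ k` act in the same way on the layer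
  have hcast : ∀ (a : ℕ) (x : U.W (n + c)), ((a : HA)) • x = a • x := by
    intro a x
    rw [Nat.cast_smul_eq_nsmul]
  have hkeyM : ∀ a : Gal →₀ HA, (∀ x : U.W (n + c), (a.sum fun g r => r • U.ρ (n + c) g x) = 0) →
      ∀ i j, (a.sum fun g r => polyT H r • matRep H.ρ B g) i j ∈ I := by
    intro a ha i j
    refine ch_key (U.ρ (n + c)) (fun g => (e g : HA)) t ?_ ?_ ?_ (polyT H) I ?_ (matRep H.ρ B) ?_ ?_
      a ha i j
    · intro g x
      rw [hcast]
      exact hCH g x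
    · intro g h x
      rw [hcast, hcast, hcast, smul_smul]
      exact S31.nsmul_eq_of_modEq (hemul g h) x (U.pow_smul (n + c) x)
    · intro x
      rw [hcast]
      have := S31.nsmul_eq_of_modEq heone x (U.pow_smul (n + c) x)
      rwa [one_smul] at this
    · intro P hP
      apply hn
      have h1 := hc n P hP
      rw [Ideal.mem_span_singleton] at h1
      obtain ⟨b, hb⟩ := h1
      rw [hb]
      exact Ideal.mul_mem_right _ _ (Ideal.pow_mem_pow hpT n)
    · intro g
      apply hn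
      have := htr g
      rwa [LinearMap.trace_eq_matrix_trace T B] at this
    · exact S31.span_toMatrix_eq_top H.ρ H.residual_absIrr B
  refine hasHopfOrder_of_key (U.ρ (n + c)) (hU (n + c)).2 (levelRep H.ρ I) I ?_ (polyT H)
    (Submodule.Quotient.mk (B 0)) ?_ ?_
  · intro τ hτ y
    obtain ⟨v, rfl⟩ := Submodule.Quotient.mk_surjective _ y
    rw [← Submodule.Quotient.mk_smul, Submodule.Quotient.mk_eq_zero]
    exact Submodule.smul_mem_smul hτ Submodule.mem_top
  · intro a ha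
    have h1 := hkeyM a ha
    set f : Module.End T H.ρ.V := a.sum fun g r => polyT H r • H.ρ.ρ g with hf
    have h2 : LinearMap.toMatrix B B f = a.sum fun g r => polyT H r • matRep H.ρ B g := by
      rw [hf, map_finsuppSum]
      refine Finsupp.sum_congr fun g _ => ?_
      rw [map_smul]
      rfl
    have h3 := apply_mem_smul_top_of_entries B f I (fun i j => by rw [h2]; exact h1 i j) (B 0)
    have h4 : (a.sum fun g r => polyT H r • levelRep H.ρ I g (Submodule.Quotient.mk (B 0))) =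
        Submodule.Quotient.mk (f (B 0)) := by
      rw [hf, Finsupp.sum, Finsupp.sum, LinearMap.sum_apply]
      have h5 : ∀ z : H.ρ.V, (Submodule.Quotient.mk z : H.ρ.V ⧸ (I • (⊤ : Submodule T H.ρ.V))) =
          (I • (⊤ : Submodule T H.ρ.V)).mkQ z := fun _ => rfl
      rw [h5 (∑ d ∈ a.support, _), map_sum]
      refine Finset.sum_congr rfl fun g _ => ?_
      rw [levelRep_mk, LinearMap.smul_apply, map_smul]
      rfl
    rw [h4, Submodule.Quotient.mk_eq_zero]
    exact h3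
  · intro y
    obtain ⟨v, rfl⟩ := Submodule.Quotient.mk_surjective _ y
    obtain ⟨c', hc'⟩ := exists_cyclic H.ρ H.residual_absIrr B v
    refine ⟨c', ?_⟩
    have h5 : ∀ z : H.ρ.V, (Submodule.Quotient.mk z : H.ρ.V ⧸ (I • (⊤ : Submodule T H.ρ.V))) =
        (I • (⊤ : Submodule T H.ρ.V)).mkQ z := fun _ => rfl
    rw [hc', Finsupp.sum, Finsupp.sum, h5 (∑ d ∈ c'.support, _), map_sum]
    refine Finset.sum_congr rfl fun g _ => ?_
    rw [levelRep_mk, map_smul]
    rfl

/-- **S32 from S19.** -/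
theorem isFlatAt_of_flatTors (hS19 : FlatTors) [Finite (IsLocalRing.ResidueField 𝒪)]
    (hp : p.Prime) (hp𝒪 : (p : 𝒪) ∈ IsLocalRing.maximalIdeal 𝒪) (hpN : ¬ p ∣ N)
    (hpS : p ∈ S) (hNS : ∀ q : ℕ, q.Prime → q ∣ N → q ∈ S)
    (H : CuspForm.HeckeGaloisRepDatum N (↑S : Set ℕ) 𝒪 θ T) :
    H.ρ.IsFlatAt p := by
  haveI : Fact p.Prime := ⟨hp⟩
  obtain ⟨U, hU⟩ := exists_flat_utower hS19 hpN S hNS hpS
  refine isFlatAt_of_hasHopfOrder H.ρ ?_ fun I hI => ?_
  · refine Finite.of_surjective (IsLocalRing.ResidueField.map (algebraMap 𝒪 T)) ?_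
    intro x
    obtain ⟨a, ha⟩ := H.residue_surjective x
    exact ⟨IsLocalRing.residue 𝒪 a, ha⟩
  · haveI := hI
    exact hasHopfOrder_level hp𝒪 hpS hNS U hU H I

end Fermat.Agent.S32
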